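/-
S25 package CONN, leaf Par: copy of helper10 Lib/Curve/TensorDomain.lean (namespace renamed): tensor products of domains over an algebraically closed field.
Mathlib-only, complete proofs.
-/
import Mathlib

set_option autoImplicit false

namespace Fermat.Agent.S25.CONN.Par

open scoped TensorProduct

/-- Nullstellensatz: in a finitely generated algebra over an algebraically closed field, a
non-nilpotent element is nonzero at some `k`-point. -/
theorem exists_algHom_apply_ne_zero {k A : Type*} [Field k] [IsAlgClosed k] [CommRing A]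
    [Algebra k A] [Algebra.FiniteType k A] {c : A} (hc : ¬ IsNilpotent c) :
    ∃ φ : A →ₐ[k] k, φ c ≠ 0 := by
  have hnt : Nontrivial (Localization.Away c) := by
    rw [← not_subsingleton_iff_nontrivial,
      IsLocalization.subsingleton_iff (M := Submonoid.powers c)]
    rintro ⟨n, hn⟩
    exact hc ⟨n, hn⟩
  obtain ⟨m, hm⟩ := Ideal.exists_maximal (Localization.Away c)
  let _ : Field (Localization.Away c ⧸ m) := Ideal.Quotient.field m
  have hft1 : Algebra.FiniteType k (Localization.Away c) :=
    Algebra.FiniteType.trans (S := A) inferInstance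
      (IsLocalization.finiteType_of_monoid_fg (Submonoid.powers c) (Localization.Away c))
  have hft : Algebra.FiniteType k (Localization.Away c ⧸ m) :=
    Algebra.FiniteType.of_surjective (Ideal.Quotient.mkₐ k m) (Ideal.Quotient.mkₐ_surjective k m)
  have hfin : Module.Finite k (Localization.Away c ⧸ m) :=
    finite_of_finite_type_of_isJacobsonRing k _
  have hbij : Function.Bijective (algebraMap k (Localization.Away c ⧸ m)) :=
    IsAlgClosed.algebraMap_bijective_of_isIntegral
  let e : k ≃ₐ[k] (Localization.Away c ⧸ m) := AlgEquiv.ofBijective (Algebra.ofId k _) hbij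
  let ψ : A →ₐ[k] (Localization.Away c ⧸ m) :=
    (Ideal.Quotient.mkₐ k m).comp (IsScalarTower.toAlgHom k A (Localization.Away c))
  refine ⟨(e.symm : (Localization.Away c ⧸ m) →ₐ[k] k).comp ψ, ?_⟩
  have hu : IsUnit (ψ c) := by
    have h1 : IsUnit (algebraMap A (Localization.Away c) c) :=
      IsLocalization.Away.algebraMap_isUnit c
    exact h1.map (Ideal.Quotient.mkₐ k m)
  intro h0
  have h1 : ψ c = 0 := by
    have := congrArg e h0
    simpa using this
  rw [h1] at hu
  exact not_isUnit_zero hu

/-- Over an algebraically closed field, the tensor product of two domains is a domain. -/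
theorem isDomain_tensorProduct_of_isAlgClosed {k A B : Type*} [Field k] [IsAlgClosed k]
    [CommRing A] [CommRing B] [Algebra k A] [Algebra k B] [IsDomain A] [IsDomain B] :
    IsDomain (A ⊗[k] B) := by
  classical
  let b := Module.Free.chooseBasis k B
  let bb := Algebra.TensorProduct.basis A b
  have hnt : Nontrivial (A ⊗[k] B) := by
    refine ⟨⟨(1 : A) ⊗ₜ[k] (1 : B), 0, ?_⟩⟩
    intro h
    have h1 : (1 : A ⊗[k] B) = 0 := h
    have h2 := congrArg (Algebra.TensorProduct.lmul' (S := FractionRing A ⊗[k] FractionRing B) k ∘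
      Algebra.TensorProduct.map (Algebra.TensorProduct.includeLeft.comp
        (IsScalarTower.toAlgHom k A (FractionRing A)))
        (Algebra.TensorProduct.includeRight.comp
        (IsScalarTower.toAlgHom k B (FractionRing B)))) h1
    simp only [Function.comp_apply, map_one, map_zero] at h2
    exact one_ne_zero h2
  have hnz : NoZeroDivisors (A ⊗[k] B) := by
    refine ⟨fun {x y} hxy => ?_⟩
    by_contra hne
    push Not at hne
    obtain ⟨hx, hy⟩ := hne
    obtain ⟨i₀, hi₀⟩ : ∃ i, bb.repr x i ≠ 0 := by
      by_contra h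
      push Not at h
      exact hx (bb.repr.injective (by ext i; simpa using h i))
    obtain ⟨j₀, hj₀⟩ : ∃ j, bb.repr y j ≠ 0 := by
      by_contra h
      push Not at h
      exact hy (bb.repr.injective (by ext i; simpa using h i))
    let S : Finset A := (bb.repr x).support.image (bb.repr x) ∪
      (bb.repr y).support.image (bb.repr y)
    let A₀ : Subalgebra k A := Algebra.adjoin k (S : Set A)
    have hft : Algebra.FiniteType k A₀ :=
      (Subalgebra.fg_iff_finiteType _).mp (Subalgebra.fg_adjoin_finset S)
    have hmemx : ∀ i, bb.repr x i ∈ A₀ := by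
      intro i
      by_cases hi : bb.repr x i = 0
      · rw [hi]; exact zero_mem _
      · apply Algebra.subset_adjoin
        simp only [S, Finset.coe_union, Finset.coe_image, Set.mem_union, Set.mem_image,
          Finset.mem_coe, Finsupp.mem_support_iff]
        exact Or.inl ⟨i, hi, rfl⟩
    have hmemy : ∀ i, bb.repr y i ∈ A₀ := by
      intro i
      by_cases hi : bb.repr y i = 0
      · rw [hi]; exact zero_mem _
      · apply Algebra.subset_adjoin
        simp only [S, Finset.coe_union, Finset.coe_image, Set.mem_union, Set.mem_image,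
          Finset.mem_coe, Finsupp.mem_support_iff]
        exact Or.inr ⟨i, hi, rfl⟩
    let c : A₀ := ⟨bb.repr x i₀, hmemx i₀⟩ * ⟨bb.repr y j₀, hmemy j₀⟩
    have hc : ¬ IsNilpotent c := by
      intro hnil
      have h0 : c = 0 := hnil.eq_zero
      have h1 : bb.repr x i₀ * bb.repr y j₀ = 0 := congrArg Subtype.val h0
      rcases mul_eq_zero.mp h1 with h | h
      · exact hi₀ h
      · exact hj₀ h
    obtain ⟨φ, hφ⟩ := exists_algHom_apply_ne_zero (k := k) hc
    let ev : A₀ ⊗[k] B →ₐ[k] B :=
      Algebra.TensorProduct.lift ((Algebra.ofId k B).comp φ) (AlgHom.id k B)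
        (fun _ _ => Commute.all _ _)
    let inc : A₀ ⊗[k] B →ₐ[k] A ⊗[k] B := Algebra.TensorProduct.map A₀.val (AlgHom.id k B)
    have hinc : Function.Injective inc :=
      Module.Flat.rTensor_preserves_injective_linearMap (M := B) A₀.val.toLinearMap
        Subtype.val_injective
    let x₀ : A₀ ⊗[k] B := ∑ i ∈ (bb.repr x).support, (⟨bb.repr x i, hmemx i⟩ : A₀) ⊗ₜ[k] b i
    let y₀ : A₀ ⊗[k] B := ∑ i ∈ (bb.repr y).support, (⟨bb.repr y i, hmemy i⟩ : A₀) ⊗ₜ[k] b i
    have hrepr : ∀ z : A ⊗[k] B, z = ∑ i ∈ (bb.repr z).support, bb.repr z i ⊗ₜ[k] b i := by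
      intro z
      conv_lhs => rw [← bb.linearCombination_repr z, Finsupp.linearCombination_apply,
        Finsupp.sum]
      refine Finset.sum_congr rfl fun i _ => ?_
      rw [Algebra.TensorProduct.basis_apply, TensorProduct.smul_tmul', smul_eq_mul, mul_one]
    have hx₀ : inc x₀ = x := by
      conv_rhs => rw [hrepr x]
      simp only [x₀, inc, map_sum, Algebra.TensorProduct.map_tmul, Subalgebra.coe_val,
        AlgHom.coe_id, id_eq]
    have hy₀ : inc y₀ = y := by
      conv_rhs => rw [hrepr y]
      simp only [y₀, inc, map_sum, Algebra.TensorProduct.map_tmul, Subalgebra.coe_val,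
        AlgHom.coe_id, id_eq]
    have h0 : x₀ * y₀ = 0 := hinc (by rw [map_mul, hx₀, hy₀, hxy, map_zero])
    have h1 : ev x₀ * ev y₀ = 0 := by rw [← map_mul, h0, map_zero]
    have hevx : ev x₀ = ∑ i ∈ (bb.repr x).support, φ ⟨bb.repr x i, hmemx i⟩ • b i := by
      simp only [ev, x₀, map_sum, Algebra.TensorProduct.lift_tmul, AlgHom.coe_comp,
        Function.comp_apply, AlgHom.coe_id, id_eq, Algebra.ofId_apply, Algebra.smul_def]
    have hevy : ev y₀ = ∑ i ∈ (bb.repr y).support, φ ⟨bb.repr y i, hmemy i⟩ • b i := by
      simp only [ev, y₀, map_sum, Algebra.TensorProduct.lift_tmul, AlgHom.coe_comp,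
        Function.comp_apply, AlgHom.coe_id, id_eq, Algebra.ofId_apply, Algebra.smul_def]
    have hli := linearIndependent_iff'.mp b.linearIndependent
    rcases mul_eq_zero.mp h1 with h | h
    · rw [hevx] at h
      have h2 := hli _ _ h i₀ (Finsupp.mem_support_iff.mpr hi₀)
      exact hφ (by rw [map_mul, h2, zero_mul])
    · rw [hevy] at h
      have h2 := hli _ _ h j₀ (Finsupp.mem_support_iff.mpr hj₀)
      exact hφ (by rw [map_mul, h2, mul_zero])
  exact NoZeroDivisors.to_isDomain _

end Fermat.Agent.S25.CONN.Par
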